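import Fermat.Agent.FlowPolynomial.Defs

/-!
# Deletion and contraction

The number of nowhere-zero flows with values in a finite abelian group is a polynomial in its order.
-/

set_option autoImplicit false

noncomputable section

namespace FA.FlowPolynomial

open Finset
open Classical

universe u v w

variable {V : Type v} {E : Type u} [Fintype E] (tail head : E → V) (e : E)
variable (A : Type w) [AddCommGroup A] [Fintype A]

/-- The vertex map of the contraction of `e`. -/
def contract (x : V) : V := if x = head e then tail e else x

omit [Fintype E] in
theorem inc_contract (he : tail e ≠ head e) (i : E) (x : V) :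
    inc (fun i => contract tail head e (tail i)) (fun i => contract tail head e (head i)) i x =
      if x = head e then 0
      else if x = tail e then inc tail head i (tail e) + inc tail head i (head e)
      else inc tail head i x := by
  simp only [inc, contract]
  by_cases hxb : x = head e
  · subst hxb
    split_ifs <;> simp_all
  by_cases hxa : x = tail e
  · subst hxa
    split_ifs <;> simp_all
  · rw [if_neg hxb, if_neg hxa]
    split_ifs <;> simp_all

theorem card_loop (he : tail e = head e) :
    #(nzFlows (A := A) tail head) =
      (Fintype.card A - 1) * #(nzFlows (A := A) (fun i : {i // i ≠ e} => tail i)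
        (fun i : {i // i ≠ e} => head i)) := by
  rw [← card_univ, ← card_erase_of_mem (mem_univ (0 : A)), ← card_product]
  have hflow : ∀ f : E → A, IsFlow tail head f ↔
      IsFlow (fun i : {i // i ≠ e} => tail i) (fun i : {i // i ≠ e} => head i) fun i => f i := by
    intro f
    simp [IsFlow, excess_split tail head f e, inc, he]
  refine card_bij' (fun f _ => (f e, fun i => f i.1))
    (fun p _ => fun i => if h : i = e then p.1 else p.2 ⟨i, h⟩) ?_ ?_ ?_ ?_
  · intro f hf
    rw [mem_nzFlows] at hf
    simp only [mem_product, mem_erase, mem_univ, and_true, mem_nzFlows]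
    exact ⟨hf.2 e, (hflow f).1 hf.1, fun i => hf.2 i.1⟩
  · intro p hp
    simp only [mem_product, mem_erase, mem_univ, and_true, mem_nzFlows] at hp ⊢
    refine ⟨(hflow _).2 ?_, fun i => ?_⟩
    · convert hp.2.1 with i
      rw [dif_neg i.2]
    · split_ifs with h
      exacts [hp.1, hp.2.2 _]
  · intro f _
    funext i
    by_cases h : i = e <;> simp [h]
  · intro p _
    refine Prod.ext (by simp) (funext fun i => ?_)
    simp [i.2]

/-- The flows that are nonzero off the edge `e`. -/
def offFlows : Finset (E → A) :=
  univ.filter fun f => IsFlow tail head f ∧ ∀ i, i ≠ e → f i ≠ 0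

theorem card_offFlows (he : tail e ≠ head e) :
    #(offFlows tail head e A) =
      #(nzFlows (A := A) (fun i : {i // i ≠ e} => contract tail head e (tail i))
        (fun i : {i // i ≠ e} => contract tail head e (head i))) := by
  set t' := fun i : {i // i ≠ e} => contract tail head e (tail i)
  set h' := fun i : {i // i ≠ e} => contract tail head e (head i)
  set t := fun i : {i // i ≠ e} => tail i.1
  set h := fun i : {i // i ≠ e} => head i.1
  have hne : head e ≠ tail e := fun h0 => he h0.symm
  have hex : ∀ (g : {i // i ≠ e} → A) (x : V), excess t' h' g x =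
      if x = head e then 0
      else if x = tail e then excess t h g (tail e) + excess t h g (head e)
      else excess t h g x := by
    intro g x
    have hi : ∀ i : {i // i ≠ e}, inc t' h' i x = if x = head e then 0
        else if x = tail e then inc t h i (tail e) + inc t h i (head e) else inc t h i x :=
      fun i => inc_contract tail head e he i.1 x
    simp only [excess, hi]
    split_ifs <;> simp [add_smul, sum_add_distrib]
  refine card_bij' (fun f _ => fun i => f i.1)
    (fun g _ => fun i => if hi : i = e then excess t h g (head e) else g ⟨i, hi⟩) ?_ ?_ ?_ ?_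
  · intro f hf
    simp only [offFlows, mem_filter, mem_univ, true_and] at hf
    refine mem_nzFlows.2 ⟨fun x => ?_, fun i => hf.2 i.1 i.2⟩
    rw [hex]
    have hb := hf.1 (head e)
    have ha := hf.1 (tail e)
    rw [excess_split tail head f e] at ha hb
    split_ifs with h1 h2
    · rfl
    · simp only [inc, if_neg he, if_neg hne, sub_zero, zero_sub,
        neg_smul] at ha hb
      rw [← add_zero (0 : A)]
      nth_rw 1 [← ha]
      nth_rw 1 [← hb]
      abel
    · have hx := hf.1 x
      rw [excess_split tail head f e] at hx
      simpa [inc, Ne.symm h1, Ne.symm h2] using hx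
  · intro g hg
    rw [mem_nzFlows] at hg
    simp only [offFlows, mem_filter, mem_univ, true_and]
    refine ⟨fun x => ?_, fun i hi => by simpa [hi] using hg.2 _⟩
    rw [excess_split tail head _ e, dif_pos rfl]
    have hrest : (fun i : {i // i ≠ e} =>
        if hi : (i : E) = e then excess t h g (head e) else g ⟨i, hi⟩) = g := by
      funext i
      rw [dif_neg i.2]
    rw [hrest]
    show inc tail head e x • excess t h g (head e) + excess t h g x = 0
    by_cases h1 : x = head e
    · subst h1
      simp [inc, he]
    by_cases h2 : x = tail e
    · subst h2
      have := hg.1 (tail e)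
      rw [hex, if_neg he, if_pos rfl] at this
      simpa [inc, hne, add_comm] using this
    · have := hg.1 x
      rw [hex, if_neg h1, if_neg h2] at this
      simpa [inc, Ne.symm h1, Ne.symm h2] using this
  · intro f hf
    simp only [offFlows, mem_filter, mem_univ, true_and] at hf
    funext i
    by_cases hi : i = e
    · subst hi
      have hb := hf.1 (head i)
      rw [excess_split tail head f i] at hb
      simp only [dif_pos]
      simp [inc, he] at hb
      exact (neg_add_eq_zero.1 hb).symm
    · simp [hi]
  · intro g _
    funext i
    simp [i.2]

theorem card_contract (he : tail e ≠ head e) :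
    #(nzFlows (A := A) (fun i : {i // i ≠ e} => contract tail head e (tail i))
        (fun i : {i // i ≠ e} => contract tail head e (head i))) =
      #(nzFlows (A := A) tail head) +
        #(nzFlows (A := A) (fun i : {i // i ≠ e} => tail i)
          (fun i : {i // i ≠ e} => head i)) := by
  rw [← card_offFlows tail head e A he,
    ← card_filter_add_card_filter_not (s := offFlows tail head e A) fun f => f e ≠ 0]
  congr 1
  · congr 1
    ext f
    simp only [offFlows, mem_filter, mem_univ, true_and, mem_nzFlows]
    refine ⟨fun h => ⟨h.1.1, fun i => ?_⟩, fun h => ⟨⟨h.1, fun i _ => h.2 i⟩, h.2 e⟩⟩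
    by_cases hi : i = e
    exacts [hi ▸ h.2, h.1.2 i hi]
  · refine card_bij' (fun f _ => fun i => f i.1)
      (fun g _ => fun i => if hi : i = e then 0 else g ⟨i, hi⟩) ?_ ?_ ?_ ?_
    · intro f hf
      simp only [offFlows, mem_filter, mem_univ, true_and, not_not] at hf
      refine mem_nzFlows.2 ⟨fun x => ?_, fun i => hf.1.2 i.1 i.2⟩
      have hx := hf.1.1 x
      rwa [excess_split tail head f e, hf.2, smul_zero, zero_add] at hx
    · intro g hg
      rw [mem_nzFlows] at hg
      simp only [offFlows, mem_filter, mem_univ, true_and, not_not, dif_pos]
      refine ⟨⟨fun x => ?_, fun i hi => by simpa [hi] using hg.2 _⟩, trivial⟩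
      rw [excess_split tail head _ e, dif_pos rfl, smul_zero, zero_add]
      convert hg.1 x with i
      rw [dif_neg i.2]
    · intro f hf
      simp only [offFlows, mem_filter, mem_univ, true_and, not_not] at hf
      funext i
      by_cases hi : i = e <;> simp [hi, hf.2]
    · intro g _
      funext i
      simp [i.2]

omit tail head e in
theorem exists_flowPoly (n : ℕ) : ∀ (E : Type u) [Fintype E] (tail head : E → V),
    Fintype.card E = n → ∃ P : Polynomial ℤ, ∀ (A : Type w) [AddCommGroup A] [Fintype A],
      (#(nzFlows (A := A) tail head) : ℤ) = P.eval (Fintype.card A : ℤ) := by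
  induction n with
  | zero =>
    intro E _ tail head hE
    have : IsEmpty E := Fintype.card_eq_zero_iff.1 hE
    refine ⟨1, fun A _ _ => ?_⟩
    simp [nzFlows, IsFlow, excess]
  | succ n ih =>
    intro E _ tail head hE
    obtain ⟨e⟩ : Nonempty E := Fintype.card_pos_iff.1 (by omega)
    have hE' : Fintype.card {i // i ≠ e} = n := by simp [hE]
    obtain ⟨P, hP⟩ := ih {i // i ≠ e} (fun i => tail i) (fun i => head i) hE'
    by_cases he : tail e = head e
    · refine ⟨(Polynomial.X - 1) * P, fun A _ _ => ?_⟩
      rw [card_loop tail head e A he, Nat.cast_mul, Nat.cast_sub Fintype.card_pos, hP A]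
      simp
    · obtain ⟨Q, hQ⟩ := ih {i // i ≠ e} (fun i => contract tail head e (tail i))
        (fun i => contract tail head e (head i)) hE'
      refine ⟨Q - P, fun A _ _ => ?_⟩
      rw [Polynomial.eval_sub, ← hQ A, ← hP A, card_contract tail head e A he]
      push_cast
      ring

end FA.FlowPolynomial
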