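import Mathlib

/-!
# Flows on finite multigraphs

A multigraph is a type of edges with two maps to the vertices; loops and parallel edges are allowed.
-/

set_option autoImplicit false

noncomputable section

namespace FA.FlowPolynomial

open Finset
open Classical

universe u v w

variable {V : Type v} {E : Type u} [Fintype E] {A : Type w} [AddCommGroup A]

/-- The incidence number of an edge at a vertex: `1` at the tail, `-1` at the head. -/
def inc (tail head : E → V) (e : E) (x : V) : ℤ :=
  (if tail e = x then 1 else 0) - (if head e = x then 1 else 0)

/-- The flow out of a vertex minus the flow into it. -/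
def excess (tail head : E → V) (f : E → A) (x : V) : A :=
  ∑ e, inc tail head e x • f e

/-- A flow conserves at every vertex. -/
def IsFlow (tail head : E → V) (f : E → A) : Prop :=
  ∀ x, excess tail head f x = 0

/-- The flows that are nonzero on every edge. -/
def nzFlows [Fintype A] (tail head : E → V) : Finset (E → A) :=
  univ.filter fun f => IsFlow tail head f ∧ ∀ e, f e ≠ 0

theorem mem_nzFlows [Fintype A] {tail head : E → V} {f : E → A} :
    f ∈ nzFlows tail head ↔ IsFlow tail head f ∧ ∀ e, f e ≠ 0 := by
  simp [nzFlows]

theorem excess_split (tail head : E → V) (f : E → A) (e : E) (x : V) :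
    excess tail head f x = inc tail head e x • f e +
      excess (fun i : {i // i ≠ e} => tail i) (fun i : {i // i ≠ e} => head i)
        (fun i => f i) x := by
  rw [excess, Fintype.sum_eq_add_sum_subtype_ne _ e]
  rfl

theorem isFlow_iff {tail head : E → V} {f : E → A} : IsFlow tail head f ↔
    ∀ x, ∑ e ∈ univ.filter (fun e => tail e = x), f e =
      ∑ e ∈ univ.filter (fun e => head e = x), f e := by
  refine forall_congr' fun x => ?_
  rw [← sub_eq_zero (a := ∑ e ∈ _, f e), excess, sum_filter, sum_filter, ← sum_sub_distrib]
  simp only [inc, sub_smul, ite_smul, one_smul, zero_smul]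

theorem excess_map {B : Type*} [AddCommGroup B] (φ : A →+ B) (tail head : E → V) (f : E → A)
    (x : V) : excess tail head (fun e => φ (f e)) x = φ (excess tail head f x) := by
  simp [excess]

end FA.FlowPolynomial
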