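import Fermat.Agent.FlowPolynomial.Defs

/-!
# Integer lifts

A nowhere-zero flow modulo `k` lifts to an integer flow with values in absolute value below `k`.
A lift of least total excess has none: otherwise some vertices with positive and with negative
excess are joined by a route along the current directions, and reversing it lowers the total.
-/

set_option autoImplicit false

noncomputable section

namespace FA.FlowPolynomial

open Finset
open Classical

universe u v

variable {V : Type v} {E : Type u}

section Route

variable (src tgt : E → V) (start : V)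

/-- The vertices reached from `start` in at most the given number of steps. -/
def Reached : ℕ → V → Prop
  | 0, x => x = start
  | m + 1, x => Reached m x ∨ ∃ e, Reached m (src e) ∧ tgt e = x

theorem exists_route [Fintype V] : ∀ (m : ℕ) (x : V), Reached src tgt start m x →
    ∃ T : Finset E, (∀ e ∈ T, Reached src tgt start m (tgt e)) ∧
      ∀ y, ∑ e ∈ T, inc src tgt e y =
        (if start = y then 1 else 0) - (if x = y then 1 else 0) := by
  intro m
  induction m with
  | zero => exact fun x hx => ⟨∅, by simp, fun y => by simp [show x = start from hx]⟩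
  | succ m ih =>
    intro x hx
    by_cases hold : Reached src tgt start m x
    · obtain ⟨T, hT, hsum⟩ := ih x hold
      exact ⟨T, fun e he => Or.inl (hT e he), hsum⟩
    obtain ⟨e, he, rfl⟩ := hx.resolve_left hold
    obtain ⟨T, hT, hsum⟩ := ih _ he
    refine ⟨insert e T, fun i hi => ?_, fun y => ?_⟩
    · rcases mem_insert.1 hi with rfl | hi
      exacts [Or.inr ⟨_, he, rfl⟩, Or.inl (hT i hi)]
    · rw [sum_insert fun hi => hold (hT e hi), hsum, inc]
      ring

end Route

variable [Fintype V] [Fintype E] (tail head : E → V)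

theorem sum_excess (f : E → ℤ) : ∑ x, excess tail head f x = 0 := by
  simp only [excess]
  rw [sum_comm]
  simp [inc, sub_mul, sum_sub_distrib]

theorem exists_lift {k : ℕ} (hk : 0 < k) (g : E → ZMod k) (hg : IsFlow tail head g)
    (hg0 : ∀ e, g e ≠ 0) :
    ∃ f : E → ℤ, IsFlow tail head f ∧ ∀ e, 0 < |f e| ∧ |f e| < k := by
  have : NeZero k := ⟨hk.ne'⟩
  let good : (E → ℤ) → Prop := fun f => ∀ e, (0 < |f e| ∧ |f e| < k) ∧ (f e : ZMod k) = g e
  let total : (E → ℤ) → ℕ := fun f => ∑ x, (excess tail head f x).natAbs
  have hgood : ∃ m f, good f ∧ total f = m := by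
    refine ⟨_, fun e => ((g e).val : ℤ), fun e => ⟨⟨?_, ?_⟩, ?_⟩, rfl⟩
    · rw [Nat.abs_cast, Nat.cast_pos]
      exact Nat.pos_of_ne_zero ((ZMod.val_ne_zero _).2 (hg0 e))
    · rw [Nat.abs_cast, Nat.cast_lt]
      exact ZMod.val_lt _
    · rw [Int.cast_natCast, ZMod.natCast_zmod_val]
  obtain ⟨f, hf, hmin⟩ := Nat.find_spec hgood
  refine ⟨f, ?_, fun e => (hf e).1⟩
  by_contra hnot
  have hex : ∀ x, (k : ℤ) ∣ excess tail head f x := fun x => by
    rw [← ZMod.intCast_zmod_eq_zero_iff_dvd]
    have h := excess_map (Int.castAddHom (ZMod k)) tail head f x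
    simp only [Int.coe_castAddHom] at h
    rw [← h, show (fun e => (f e : ZMod k)) = g from funext fun e => (hf e).2]
    exact hg x
  -- a vertex of positive excess
  obtain ⟨v₀, hv₀⟩ : ∃ x, 0 < excess tail head f x := by
    by_contra hall
    push Not at hall
    exact hnot fun x => (sum_eq_zero_iff_of_nonpos fun y _ => hall y).1
      (sum_excess tail head f) x (mem_univ x)
  set src := fun e => if 0 < f e then tail e else head e with hsrc
  set tgt := fun e => if 0 < f e then head e else tail e with htgt
  set δ : E → ℤ := fun e => if 0 < f e then 1 else -1 with hδ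
  have hinc : ∀ e x, inc tail head e x * δ e = inc src tgt e x := by
    intro e x
    simp only [hsrc, htgt, hδ, inc]
    by_cases h : 0 < f e <;> simp [h]
  -- some reached vertex has negative excess
  set R : Finset V := univ.filter fun x => ∃ m, Reached src tgt v₀ m x with hR
  obtain ⟨w, hw, hwneg⟩ : ∃ w ∈ R, excess tail head f w < 0 := by
    by_contra hall
    push Not at hall
    have hpos : 0 < ∑ x ∈ R, excess tail head f x :=
      sum_pos' hall ⟨v₀, mem_filter.2 ⟨mem_univ _, 0, rfl⟩, hv₀⟩
    have hle : ∑ x ∈ R, excess tail head f x ≤ 0 := by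
      simp only [excess, smul_eq_mul]
      rw [sum_comm]
      refine sum_nonpos fun e _ => ?_
      have h1 : ∀ x, inc tail head e x * f e = inc src tgt e x * |f e| := by
        intro x
        rw [← hinc e x, mul_assoc]
        congr 1
        simp only [hδ]
        by_cases h : 0 < f e
        · rw [if_pos h, abs_of_pos h, one_mul]
        · rw [if_neg h, abs_of_nonpos (not_lt.1 h), neg_one_mul, neg_neg]
      simp only [h1, ← sum_mul]
      refine mul_nonpos_of_nonpos_of_nonneg ?_ (abs_nonneg _)
      simp only [inc, sum_sub_distrib, sum_ite_eq]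
      have hclosed : src e ∈ R → tgt e ∈ R := fun h => by
        obtain ⟨m, hm⟩ := (mem_filter.1 h).2
        exact mem_filter.2 ⟨mem_univ _, m + 1, Or.inr ⟨e, hm, rfl⟩⟩
      by_cases hs : src e ∈ R
      · rw [if_pos hs, if_pos (hclosed hs), sub_self]
      · rw [if_neg hs]
        split_ifs <;> norm_num
    omega
  obtain ⟨m, hm⟩ := (mem_filter.1 hw).2
  obtain ⟨T, -, hT⟩ := exists_route src tgt v₀ m w hm
  -- reverse the route
  set f' : E → ℤ := fun e => f e - if e ∈ T then (k : ℤ) * δ e else 0 with hf'
  have hgood' : good f' := by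
    intro e
    obtain ⟨⟨h1, h2⟩, h3⟩ := hf e
    simp only [hf', hδ]
    by_cases heT : e ∈ T
    · rw [if_pos heT]
      by_cases h : 0 < f e
      · rw [if_pos h, mul_one]
        rw [abs_of_pos h] at h1 h2
        refine ⟨?_, by simp [h3]⟩
        rw [abs_of_nonpos (by omega : f e - (k : ℤ) ≤ 0)]
        omega
      · rw [if_neg h]
        rw [abs_of_nonpos (not_lt.1 h)] at h1 h2
        refine ⟨?_, by simp [h3]⟩
        rw [abs_of_nonneg (by omega : (0 : ℤ) ≤ f e - (k : ℤ) * -1)]
        omega
    · simpa [heT] using hf e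
  have hex' : ∀ x, excess tail head f' x = excess tail head f x -
      (k : ℤ) * ((if v₀ = x then 1 else 0) - (if w = x then 1 else 0)) := by
    intro x
    rw [← hT x, mul_sum]
    simp only [excess, hf', smul_eq_mul, mul_sub, sum_sub_distrib, mul_ite, mul_zero, sum_ite_mem,
      univ_inter]
    congr 1
    refine sum_congr rfl fun e _ => ?_
    rw [← hinc e x]
    ring
  have hlt : total f' < total f := by
    refine sum_lt_sum (fun x _ => ?_) ⟨v₀, mem_univ _, ?_⟩
    · rw [hex' x]
      obtain ⟨c, hc⟩ := hex x
      by_cases h1 : v₀ = x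
      · subst h1
        have hne : w ≠ v₀ := fun h => by rw [h] at hwneg; omega
        rw [if_pos rfl, if_neg hne]
        have := Int.le_of_dvd hv₀ (hex v₀)
        omega
      by_cases h2 : w = x
      · subst h2
        rw [if_neg h1, if_pos rfl]
        have := Int.le_of_dvd (by omega : 0 < -excess tail head f w) (dvd_neg.2 (hex w))
        omega
      · rw [if_neg h1, if_neg h2, sub_zero, mul_zero, sub_zero]
    · rw [hex' v₀, if_pos rfl, if_neg (fun h => by rw [h] at hwneg; omega)]
      have := Int.le_of_dvd hv₀ (hex v₀)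
      omega
  exact absurd (Nat.find_min' hgood ⟨f', hgood', rfl⟩) (by omega)

omit [Fintype V] in
theorem exists_mod_flow {k : ℕ} {f : E → ℤ} (hf : IsFlow tail head f)
    (hb : ∀ e, 0 < |f e| ∧ |f e| < k) :
    ∃ g : E → ZMod k, IsFlow tail head g ∧ ∀ e, g e ≠ 0 := by
  refine ⟨fun e => (f e : ZMod k), fun x => ?_, fun e h => ?_⟩
  · have h := excess_map (Int.castAddHom (ZMod k)) tail head f x
    simp only [Int.coe_castAddHom] at h
    rw [h, hf x, Int.cast_zero]
  · rw [ZMod.intCast_zmod_eq_zero_iff_dvd] at h
    have := Int.le_of_dvd (hb e).1 ((dvd_abs _ _).2 h)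
    linarith [(hb e).2]

end FA.FlowPolynomial
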